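import Mathlib

set_option autoImplicit false

namespace Fermat.Agent.S16.DUDuality

theorem exists_smul_eq_of_injective {Λ T : Type} [AddCommGroup Λ] [AddCommGroup T]
    [Module.Free ℤ Λ] [Module.Finite ℤ Λ] [Module.Free ℤ T] [Module.Finite ℤ T]
    (B : T →ₗ[ℤ] Λ →ₗ[ℤ] ℤ)
    (hT : ∀ t : T, (∀ f : Λ, B t f = 0) → t = 0)
    (hΛ : ∀ f : Λ, (∀ t : T, B t f = 0) → f = 0)
    (φ : T →ₗ[ℤ] ℤ) :
    ∃ (n : ℕ) (g : Λ), n ≠ 0 ∧ ∀ t : T, B t g = (n : ℤ) * φ t := by
  have hBinj : Function.Injective B := by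
    rw [injective_iff_map_eq_zero]
    intro t ht
    exact hT t (fun f => by rw [ht]; rfl)
  have hFinj : Function.Injective B.flip := by
    rw [injective_iff_map_eq_zero]
    intro f hf
    refine hΛ f (fun t => ?_)
    rw [← LinearMap.flip_apply, hf]
    rfl
  have h1 : Module.finrank ℤ T ≤ Module.finrank ℤ Λ := by
    have := LinearMap.finrank_le_finrank_of_injective hBinj
    rwa [Module.finrank_linearMap_self] at this
  have h2 : Module.finrank ℤ Λ ≤ Module.finrank ℤ T := by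
    have := LinearMap.finrank_le_finrank_of_injective hFinj
    rwa [Module.finrank_linearMap_self] at this
  have hrank : Module.finrank ℤ (LinearMap.range B.flip) = Module.finrank ℤ (T →ₗ[ℤ] ℤ) := by
    rw [LinearMap.finrank_range_of_inj hFinj, Module.finrank_linearMap_self]
    exact le_antisymm h2 h1
  have hfin : Finite ((T →ₗ[ℤ] ℤ) ⧸ LinearMap.range B.flip) :=
    Submodule.finiteQuotientOfFreeOfRankEq _ hrank
  refine ⟨Nat.card ((T →ₗ[ℤ] ℤ) ⧸ LinearMap.range B.flip), ?_⟩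
  have hmem : Nat.card ((T →ₗ[ℤ] ℤ) ⧸ LinearMap.range B.flip) • φ ∈ LinearMap.range B.flip := by
    rw [← Submodule.Quotient.mk_eq_zero, Submodule.Quotient.mk_smul]
    exact card_nsmul_eq_zero'
  obtain ⟨g, hg⟩ := hmem
  refine ⟨g, Nat.card_pos.ne', fun t => ?_⟩
  rw [← LinearMap.flip_apply, hg, LinearMap.smul_apply, nsmul_eq_mul]

end Fermat.Agent.S16.DUDuality
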