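import Mathlib
import Fermat.Agent.S16.DUIdeal.Defs
import Fermat.Agent.S16.DUIdeal.Coeff
import Fermat.Agent.S16.DUIdeal.Sigma

/-!
# S16, block DU-duality (owner helper15): the elements `t_k`

For every `k ≥ 1` there is a polynomial `P_k` in the Hecke generators with
`a₁(φ(P_k) x) = a_k(x)` for all `x ∈ Λ`, and whose value at the Eisenstein system is `σ'(k)`.
-/

set_option autoImplicit false
set_option linter.unusedSectionVars false

open ModularCurve CuspForm

namespace Fermat.Agent.S16.DU.Duality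

open Fermat.Agent.S16.DU

variable (p : ℕ) [Fact p.Prime]

/-! ### basic properties of `act` and `aco` -/

theorem act_one (x : Lam p) : act p 1 x = x := rfl

theorem act_mul (t₁ t₂ : TT p) (x : Lam p) : act p (t₁ * t₂) x = act p t₁ (act p t₂ x) := rfl

theorem act_add (t₁ t₂ : TT p) (x : Lam p) : act p (t₁ + t₂) x = act p t₁ x + act p t₂ x := rfl

theorem act_sub (t₁ t₂ : TT p) (x : Lam p) : act p (t₁ - t₂) x = act p t₁ x - act p t₂ x := rfl

theorem act_zsmul (n : ℤ) (t : TT p) (x : Lam p) : act p (n • t) x = n • act p t x := rfl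

theorem act_intCast (n : ℤ) (x : Lam p) : act p (n : TT p) x = n • x := by
  rfl

theorem act_add_right (t : TT p) (x y : Lam p) : act p t (x + y) = act p t x + act p t y := by
  unfold act
  exact map_add _ x y

theorem act_zsmul_right (t : TT p) (n : ℤ) (x : Lam p) : act p t (n • x) = n • act p t x := by
  unfold act
  exact map_zsmul _ n x

theorem aco_add (x y : Lam p) (k : ℕ) : aco p (x + y) k = aco p x k + aco p y k := by
  unfold aco
  exact Fermat.Agent.S49.qCoeff_add _ _ k

theorem aco_sub (x y : Lam p) (k : ℕ) : aco p (x - y) k = aco p x k - aco p y k := by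
  unfold aco
  exact Fermat.Agent.S49.qCoeff_sub _ _ k

theorem aco_zsmul (n : ℤ) (x : Lam p) (k : ℕ) : aco p (n • x) k = (n : ℂ) * aco p x k := by
  unfold aco
  exact Fermat.Agent.S49.qCoeff_zsmul n _ k

theorem aco_zero_index (x : Lam p) : aco p x 0 = 0 := by
  unfold aco
  exact Fermat.Agent.S49.qCoeff_index_zero _

theorem exists_int_aco (x : Lam p) (k : ℕ) : ∃ m : ℤ, aco p x k = (m : ℂ) :=
  Fermat.Agent.S49.exists_int_qCoeff_of_mem_intLattice x.2 k

theorem eq_zero_of_aco (x : Lam p) (h : ∀ k : ℕ, 1 ≤ k → aco p x k = 0) : x = 0 := by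
  apply Subtype.ext
  apply Fermat.Agent.S49.eq_zero_of_forall_qCoeff_eq_zero
  intro n
  rcases Nat.eq_zero_or_pos n with rfl | hn
  · exact aco_zero_index p x
  · exact h n hn

/-! ### the elements `t_k` -/

theorem ev_X_self : ev p (MvPolynomial.X ⟨p, Fact.out⟩) = 1 := by
  exact (MvPolynomial.aeval_X (eisensteinSystem p) _).trans
    (eisensteinSystem_of_dvd (dvd_refl p))

theorem ev_X_of_ne (ℓ : Nat.Primes) (hℓ : (ℓ : ℕ) ≠ p) :
    ev p (MvPolynomial.X ℓ) = 1 + ((ℓ : ℕ) : ℤ) := by
  exact (MvPolynomial.aeval_X (eisensteinSystem p) _).trans (eisensteinSystem_of_not_dvd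
    (fun h => hℓ ((Nat.prime_dvd_prime_iff_eq ℓ.2 (Fact.out : p.Prime)).mp h)))

theorem exists_poly : ∀ k : ℕ, 1 ≤ k →
    ∃ P : HeckeAlg, ev p P = sigmaPZ p k ∧
      ∀ x : Lam p, aco p (act p (phi p P) x) 1 = aco p x k := by
  intro k
  induction k using Nat.strong_induction_on with
  | _ k ih =>
    intro hk
    rcases Nat.eq_or_lt_of_le hk with rfl | hk1
    · refine ⟨1, ?_, fun x => ?_⟩
      · rw [map_one, sigmaPZ_one]
      · rw [map_one, act_one]
    · have hℓ : (k.minFac).Prime := Nat.minFac_prime (by omega)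
      obtain ⟨m, hm⟩ : ∃ m, k = m * k.minFac :=
        ⟨k / k.minFac, (Nat.div_mul_cancel (Nat.minFac_dvd k)).symm⟩
      generalize k.minFac = ℓ at hℓ hm
      have hℓ2 : 2 ≤ ℓ := hℓ.two_le
      have hm1 : 1 ≤ m := by
        rcases Nat.eq_zero_or_pos m with h | h
        · subst h; omega
        · exact h
      have hmk : m < k := by rw [hm]; nlinarith
      obtain ⟨Pm, hPm1, hPm2⟩ := ih m hmk hm1
      by_cases hℓp : ℓ = p
      · subst hℓp
        refine ⟨Pm * MvPolynomial.X ⟨ℓ, Fact.out⟩, ?_, fun x => ?_⟩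
        · rw [map_mul, hPm1, ev_X_self, mul_one, hm, sigmaPZ_mul_self]
        · rw [map_mul, act_mul, hPm2, aco_act_phi_X_self, hm]
      · have hev : ev p (MvPolynomial.X ⟨ℓ, hℓ⟩) = 1 + (ℓ : ℤ) := ev_X_of_ne p ⟨ℓ, hℓ⟩ hℓp
        have hco : ∀ x : Lam p, aco p (act p (phi p (MvPolynomial.X ⟨ℓ, hℓ⟩)) x) m =
            aco p x (m * ℓ) + (if ℓ ∣ m then (ℓ : ℂ) * aco p x (m / ℓ) else 0) :=
          fun x => aco_act_phi_X_of_ne p ⟨ℓ, hℓ⟩ hℓp x m
        have hsig := sigmaPZ_mul_prime p ℓ hℓ hℓp m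
        by_cases hℓm : ℓ ∣ m
        · obtain ⟨m', hm'⟩ : ∃ m', m = m' * ℓ := ⟨m / ℓ, (Nat.div_mul_cancel hℓm).symm⟩
          have hm'1 : 1 ≤ m' := by
            rcases Nat.eq_zero_or_pos m' with h | h
            · subst h; omega
            · exact h
          have hm'k : m' < k := by
            have : m' < m := by rw [hm']; nlinarith
            omega
          have hdiv : m / ℓ = m' := by
            rw [hm']; exact Nat.mul_div_cancel _ (by omega)
          obtain ⟨Pm', hPm'1, hPm'2⟩ := ih m' hm'k hm'1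
          refine ⟨Pm * MvPolynomial.X ⟨ℓ, hℓ⟩ - ((ℓ : ℤ) : HeckeAlg) * Pm', ?_, fun x => ?_⟩
          · rw [map_sub, map_mul, map_mul, map_intCast, hPm1, hPm'1, hev, hm, hsig, if_pos hℓm,
              hdiv]
            simp only [Int.cast_natCast]
            ring
          · rw [map_sub, map_mul, map_mul, map_intCast, act_sub, aco_sub, act_mul, hPm2, hco,
              if_pos hℓm, hdiv, act_mul, act_intCast, aco_zsmul, hPm'2, hm]
            simp only [Int.cast_natCast]
            ring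
        · refine ⟨Pm * MvPolynomial.X ⟨ℓ, hℓ⟩, ?_, fun x => ?_⟩
          · rw [map_mul, hPm1, hev, hm, hsig, if_neg hℓm]
            ring
          · rw [map_mul, act_mul, hPm2, hco, if_neg hℓm, add_zero, hm]

end Fermat.Agent.S16.DU.Duality
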