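import Mathlib
import Fermat.Agent.S16.DUDuality.Tk
import Fermat.Agent.S16.DUDuality.AbsDual

/-!
# S16, block DU-duality (owner helper15): the pairing `T × Λ → ℤ`, `(t, x) ↦ a₁(t x)`

The map `Λ → Hom_ℤ(T, ℤ)` induced by the pairing is surjective.
-/

set_option autoImplicit false
set_option linter.unusedSectionVars false

open ModularCurve CuspForm

namespace Fermat.Agent.S16.DU.Duality

open Fermat.Agent.S16.DU

variable (p : ℕ) [Fact p.Prime]

/-- The integer `k`-th `q`-coefficient of an element of `Λ`. -/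
noncomputable def acoZ (x : Lam p) (k : ℕ) : ℤ := (exists_int_aco p x k).choose

theorem acoZ_spec (x : Lam p) (k : ℕ) : ((acoZ p x k : ℤ) : ℂ) = aco p x k :=
  (exists_int_aco p x k).choose_spec.symm

theorem acoZ_eq_of (x : Lam p) (k : ℕ) (m : ℤ) (h : aco p x k = (m : ℂ)) : acoZ p x k = m :=
  Int.cast_injective (α := ℂ) ((acoZ_spec p x k).trans h)

theorem acoZ_add (x y : Lam p) (k : ℕ) : acoZ p (x + y) k = acoZ p x k + acoZ p y k := by
  apply acoZ_eq_of
  rw [aco_add, Int.cast_add, acoZ_spec, acoZ_spec]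

theorem acoZ_zsmul (n : ℤ) (x : Lam p) (k : ℕ) : acoZ p (n • x) k = n * acoZ p x k := by
  apply acoZ_eq_of
  rw [aco_zsmul, Int.cast_mul, acoZ_spec]

/-- The pairing `T × Λ → ℤ`, `(t, x) ↦ a₁(t x)`. -/
noncomputable def pairing : TT p →ₗ[ℤ] Lam p →ₗ[ℤ] ℤ :=
  LinearMap.mk₂ ℤ (fun t x => acoZ p (act p t x) 1)
    (fun t₁ t₂ x => by rw [act_add, acoZ_add])
    (fun c t x => by rw [act_zsmul, acoZ_zsmul, smul_eq_mul])
    (fun t x y => by rw [act_add_right, acoZ_add])
    (fun c t x => by rw [act_zsmul_right, acoZ_zsmul, smul_eq_mul])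

theorem pairing_apply (t : TT p) (x : Lam p) : pairing p t x = acoZ p (act p t x) 1 := rfl

theorem pairing_cast (t : TT p) (x : Lam p) :
    ((pairing p t x : ℤ) : ℂ) = aco p (act p t x) 1 := by
  rw [pairing_apply, acoZ_spec]

/-- `a₁(φ(P_k) x) = a_k(x)` in terms of the pairing. -/
theorem pairing_poly (k : ℕ) (P : HeckeAlg)
    (hP : ∀ x : Lam p, aco p (act p (phi p P) x) 1 = aco p x k) (x : Lam p) :
    pairing p (phi p P) x = acoZ p x k := by
  rw [pairing_apply]
  apply acoZ_eq_of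
  rw [hP, acoZ_spec]

theorem pairing_right_injective (x : Lam p) (h : ∀ t : TT p, pairing p t x = 0) : x = 0 := by
  apply eq_zero_of_aco
  intro k hk
  obtain ⟨P, -, hP⟩ := exists_poly p k hk
  rw [← acoZ_spec, ← pairing_poly p k P hP x, h, Int.cast_zero]

theorem pairing_left_injective (t : TT p) (h : ∀ x : Lam p, pairing p t x = 0) : t = 0 := by
  have hact : ∀ x : Lam p, act p t x = 0 := by
    intro x
    apply eq_zero_of_aco
    intro k hk
    obtain ⟨P, -, hP⟩ := exists_poly p k hk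
    rw [← hP, ← act_mul, mul_comm, act_mul, ← pairing_cast, h, Int.cast_zero]
  apply Subtype.ext
  apply LinearMap.ext
  intro x
  exact hact x

/-- Duality: `Λ → Hom_ℤ(T, ℤ)`, `x ↦ (t ↦ a₁(t x))`, is surjective. -/
theorem exists_lattice_of_linearMap (φ : TT p →ₗ[ℤ] ℤ) :
    ∃ x : Lam p, ∀ t : TT p, pairing p t x = φ t := by
  haveI : Module.Finite ℤ (Lam p) := CuspForm.intLattice.moduleFinite p
  haveI : Module.Free ℤ (Lam p) := CuspForm.intLattice.moduleFree p
  obtain ⟨n, g, hn, hg⟩ := Fermat.Agent.S16.DUDuality.exists_smul_eq_of_injective (pairing p)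
    (pairing_left_injective p) (pairing_right_injective p) φ
  -- all coefficients of `g` are divisible by `n`
  have hdiv : ∀ k : ℕ, ∃ m : ℤ, ModularFormClass.qCoeff
      (⇑(g : CuspForm (CongruenceSubgroup.Gamma0 p) 2)) k = (n : ℂ) * (m : ℂ) := by
    intro k
    rcases Nat.eq_zero_or_pos k with rfl | hk
    · exact ⟨0, by rw [Int.cast_zero, mul_zero]; exact aco_zero_index p g⟩
    · obtain ⟨P, -, hP⟩ := exists_poly p k hk
      refine ⟨φ (phi p P), ?_⟩
      have h1 : acoZ p g k = (n : ℤ) * φ (phi p P) := by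
        rw [← pairing_poly p k P hP g, hg]
      have h2 := acoZ_spec p g k
      rw [h1] at h2
      rw [show ModularFormClass.qCoeff (⇑(g : CuspForm (CongruenceSubgroup.Gamma0 p) 2)) k =
        aco p g k from rfl, ← h2]
      push_cast
      ring
  obtain ⟨g', hg'mem, hg'⟩ := Fermat.Agent.S49.exists_mem_intLattice_zsmul_eq
    (g : CuspForm (CongruenceSubgroup.Gamma0 p) 2) n hn hdiv
  refine ⟨⟨g', hg'mem⟩, fun t => ?_⟩
  have hgx : g = (n : ℤ) • (⟨g', hg'mem⟩ : Lam p) := Subtype.ext hg'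
  have h3 := hg t
  rw [hgx, map_zsmul, smul_eq_mul] at h3
  exact mul_left_cancel₀ (Int.natCast_ne_zero.mpr hn) h3

end Fermat.Agent.S16.DU.Duality
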