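import Mathlib
import Fermat.Agent.S16.DUIdeal.Defs
import Fermat.Agent.S16.DUDuality.Dual

/-!
# S16, block DU-duality (owner helper15): main deliverable

A ring hom `ψ : T → R` (with `ℤ → R` surjective) taking the Eisenstein values on the Hecke
generators is realised modulo `ker (ℤ → R)` by the q-expansion of an integral cusp form:
`a_k(f) ≡ σ'(k)` for all `k ≥ 1`.

Proof: `T` is `ℤ`-free, so `ψ` lifts to a `ℤ`-linear `φ : T → ℤ`; by duality
(`Duality.exists_lattice_of_linearMap`) there is `x ∈ Λ` with `a₁(t x) = φ(t)` for all `t`;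
then `a_k(x) = a₁(t_k x) = φ(t_k) ≡ ψ(t_k) = σ'(k)` (`Duality.exists_poly`).
-/

set_option autoImplicit false

open ModularCurve CuspForm

namespace Fermat.Agent.S16.DU

theorem exists_form_of_ringHom (p : ℕ) [Fact p.Prime] {R : Type} [CommRing R]
    (hR : Function.Surjective (Int.cast : ℤ → R)) (ψ : TT p →+* R)
    (hψ : ∀ ℓ : Nat.Primes, ψ (phi p (MvPolynomial.X ℓ)) = ((eisensteinSystem p ℓ : ℤ) : R)) :
    ∃ (f : CuspForm (CongruenceSubgroup.Gamma0 p) 2) (a : ℕ → ℤ),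
      (∀ k : ℕ, ModularFormClass.qCoeff (⇑f) k = ((a k : ℤ) : ℂ)) ∧
      ∀ k : ℕ, 1 ≤ k → ((a k : ℤ) : R) = ((sigmaPZ p k : ℤ) : R) := by
  -- `ψ ∘ φ = (ℤ → R) ∘ ev`
  have hcomp : ∀ P : HeckeAlg, ψ (phi p P) = ((ev p P : ℤ) : R) := by
    have h : ψ.comp (phi p) = (Int.castRingHom R).comp (ev p : HeckeAlg →+* ℤ) := by
      apply MvPolynomial.ringHom_ext
      · intro n
        exact RingHom.congr_fun (RingHom.ext_int ((ψ.comp (phi p)).comp MvPolynomial.C)
          (((Int.castRingHom R).comp (ev p : HeckeAlg →+* ℤ)).comp MvPolynomial.C)) n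
      · intro ℓ
        have h1 : ev p (MvPolynomial.X ℓ) = eisensteinSystem p ℓ :=
          MvPolynomial.aeval_X (eisensteinSystem p) ℓ
        show ψ (phi p (MvPolynomial.X ℓ)) = ((ev p (MvPolynomial.X ℓ) : ℤ) : R)
        rw [hψ ℓ, h1]
    intro P
    exact RingHom.congr_fun h P
  -- lift `ψ` to a `ℤ`-linear map `T → ℤ`
  obtain ⟨φ, hφ⟩ : ∃ φ : TT p →ₗ[ℤ] ℤ, ∀ t : TT p, ((φ t : ℤ) : R) = ψ t := by
    obtain ⟨h, hh⟩ := Module.projective_lifting_property
      (Int.castAddHom R).toIntLinearMap ψ.toAddMonoidHom.toIntLinearMap hR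
    exact ⟨h, fun t => LinearMap.congr_fun hh t⟩
  obtain ⟨x, hx⟩ := Duality.exists_lattice_of_linearMap p φ
  refine ⟨(x : CuspForm (CongruenceSubgroup.Gamma0 p) 2), fun k => Duality.acoZ p x k,
    fun k => (Duality.acoZ_spec p x k).symm, fun k hk => ?_⟩
  obtain ⟨P, hP1, hP2⟩ := Duality.exists_poly p k hk
  show ((Duality.acoZ p x k : ℤ) : R) = ((sigmaPZ p k : ℤ) : R)
  rw [← Duality.pairing_poly p k P hP2 x, hx, hφ, hcomp, hP1]

end Fermat.Agent.S16.DU
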