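import Mathlib
import Fermat.Agent.S16.DUIdeal.Defs

/-!
# S16, block DU-duality: identities for `σ'(k) = ∑_{d ∣ k, p ∤ d} d` (`sigmaPZ`)

Backup proofs of the three identities of `DUIdeal/Sigma.lean`, for the landed definition
`Fermat.Agent.S16.DU.sigmaPZ : ℕ → ℕ → ℤ`.
Each identity is given for the raw sum (`sigmaPZ_aux_sum_*`) and for `sigmaPZ`, with an explicit
primality hypothesis (`sigmaPZ_one'`, `sigmaPZ_mul_self'`, `sigmaPZ_mul_prime'`).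
-/

set_option autoImplicit false

namespace Fermat.Agent.S16.DU

theorem sigmaPZ_aux_sum_one {p : ℕ} (hp : p.Prime) :
    (∑ d ∈ (1 : ℕ).divisors.filter (fun d => ¬ p ∣ d), (d : ℤ)) = 1 := by
  have h : ¬ p ∣ 1 := hp.one_lt.ne' ∘ Nat.dvd_one.mp
  simp [Finset.filter_singleton, h]

theorem sigmaPZ_aux_sum_mul_self {p : ℕ} (hp : p.Prime) (m : ℕ) :
    (∑ d ∈ (m * p).divisors.filter (fun d => ¬ p ∣ d), (d : ℤ)) =
      ∑ d ∈ m.divisors.filter (fun d => ¬ p ∣ d), (d : ℤ) := by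
  rcases Nat.eq_zero_or_pos m with rfl | hm
  · simp
  refine Finset.sum_congr ?_ fun _ _ => rfl
  ext d
  simp only [Finset.mem_filter, Nat.mem_divisors]
  constructor
  · rintro ⟨⟨h1, _⟩, h2⟩
    refine ⟨⟨?_, hm.ne'⟩, h2⟩
    have hc : Nat.Coprime d p := ((Nat.Prime.coprime_iff_not_dvd hp).mpr h2).symm
    exact hc.dvd_of_dvd_mul_right h1
  · rintro ⟨⟨h1, h0⟩, h2⟩
    exact ⟨⟨Dvd.dvd.mul_right h1 p, mul_ne_zero h0 hp.ne_zero⟩, h2⟩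

theorem sigmaPZ_aux_union {p ℓ : ℕ} (hp : p.Prime) (hℓ : ℓ.Prime) (hℓp : ℓ ≠ p) (m : ℕ)
    (hm : 1 ≤ m) :
    (m * ℓ).divisors.filter (fun d => ¬ p ∣ d) =
      m.divisors.filter (fun d => ¬ p ∣ d) ∪
        (m.divisors.filter (fun d => ¬ p ∣ d)).image (fun d => d * ℓ) := by
  have hm0 : m ≠ 0 := Nat.one_le_iff_ne_zero.mp hm
  have hpl : ∀ d, p ∣ d * ℓ ↔ p ∣ d := by
    intro d
    rw [hp.dvd_mul]
    constructor
    · rintro (h | h)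
      · exact h
      · exact absurd ((Nat.prime_dvd_prime_iff_eq hp hℓ).1 h).symm hℓp
    · exact Or.inl
  ext e
  simp only [Finset.mem_filter, Nat.mem_divisors, Finset.mem_union, Finset.mem_image]
  constructor
  · rintro ⟨⟨h1, _⟩, h2⟩
    by_cases hle : ℓ ∣ e
    · obtain ⟨d, rfl⟩ := hle
      right
      refine ⟨d, ⟨⟨?_, hm0⟩, ?_⟩, mul_comm _ _⟩
      · rw [mul_comm ℓ d] at h1
        exact Nat.dvd_of_mul_dvd_mul_right hℓ.pos h1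
      · intro h
        exact h2 (Dvd.dvd.mul_left h ℓ)
    · left
      have hc : Nat.Coprime e ℓ := ((Nat.Prime.coprime_iff_not_dvd hℓ).mpr hle).symm
      exact ⟨⟨hc.dvd_of_dvd_mul_right h1, hm0⟩, h2⟩
  · rintro (⟨⟨h1, h0⟩, h2⟩ | ⟨d, ⟨⟨h1, h0⟩, h2⟩, rfl⟩)
    · exact ⟨⟨Dvd.dvd.mul_right h1 ℓ, mul_ne_zero h0 hℓ.ne_zero⟩, h2⟩
    · exact ⟨⟨Nat.mul_dvd_mul_right h1 ℓ, mul_ne_zero h0 hℓ.ne_zero⟩, fun h => h2 ((hpl d).mp h)⟩

theorem sigmaPZ_aux_inter {p ℓ : ℕ} (hp : p.Prime) (hℓ : ℓ.Prime) (hℓp : ℓ ≠ p) (m : ℕ)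
    (hm : 1 ≤ m) :
    m.divisors.filter (fun d => ¬ p ∣ d) ∩
        (m.divisors.filter (fun d => ¬ p ∣ d)).image (fun d => d * ℓ) =
      if ℓ ∣ m then ((m / ℓ).divisors.filter (fun d => ¬ p ∣ d)).image (fun d => d * ℓ)
      else ∅ := by
  have hm0 : m ≠ 0 := Nat.one_le_iff_ne_zero.mp hm
  have hpl : ∀ d, p ∣ d * ℓ ↔ p ∣ d := by
    intro d
    rw [hp.dvd_mul]
    constructor
    · rintro (h | h)
      · exact h
      · exact absurd ((Nat.prime_dvd_prime_iff_eq hp hℓ).1 h).symm hℓp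
    · exact Or.inl
  split_ifs with hlm
  · obtain ⟨k, rfl⟩ := hlm
    have hk0 : k ≠ 0 := right_ne_zero_of_mul hm0
    rw [Nat.mul_div_cancel_left k hℓ.pos]
    ext e
    simp only [Finset.mem_filter, Nat.mem_divisors, Finset.mem_inter, Finset.mem_image]
    constructor
    · rintro ⟨⟨⟨h1, _⟩, _⟩, ⟨d, ⟨⟨_, _⟩, h2⟩, rfl⟩⟩
      refine ⟨d, ⟨⟨?_, hk0⟩, h2⟩, rfl⟩
      rw [mul_comm ℓ k] at h1
      exact Nat.dvd_of_mul_dvd_mul_right hℓ.pos h1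
    · rintro ⟨d, ⟨⟨h1, _⟩, h2⟩, rfl⟩
      have h3 : d * ℓ ∣ ℓ * k := by
        rw [mul_comm ℓ k]
        exact Nat.mul_dvd_mul_right h1 ℓ
      exact ⟨⟨⟨h3, hm0⟩, fun h => h2 ((hpl d).mp h)⟩,
        ⟨d, ⟨⟨(Dvd.intro _ rfl).trans h3, hm0⟩, h2⟩, rfl⟩⟩
  · ext e
    simp only [Finset.mem_filter, Nat.mem_divisors, Finset.mem_inter, Finset.mem_image,
      Finset.notMem_empty, iff_false]
    rintro ⟨⟨⟨h1, _⟩, _⟩, ⟨d, _, rfl⟩⟩
    exact hlm ((Dvd.intro_left _ rfl).trans h1)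

theorem sigmaPZ_aux_sum_mul_prime {p ℓ : ℕ} (hp : p.Prime) (hℓ : ℓ.Prime) (hℓp : ℓ ≠ p) (m : ℕ) :
    (∑ d ∈ (m * ℓ).divisors.filter (fun d => ¬ p ∣ d), (d : ℤ)) =
      (1 + (ℓ : ℤ)) * (∑ d ∈ m.divisors.filter (fun d => ¬ p ∣ d), (d : ℤ)) -
        (if ℓ ∣ m then (ℓ : ℤ) * (∑ d ∈ (m / ℓ).divisors.filter (fun d => ¬ p ∣ d), (d : ℤ))
          else 0) := by
  rcases Nat.eq_zero_or_pos m with rfl | hm
  · simp
  have hinj : ∀ s : Finset ℕ,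
      ∑ e ∈ s.image (fun d => d * ℓ), (e : ℤ) = (ℓ : ℤ) * ∑ d ∈ s, (d : ℤ) := by
    intro s
    rw [Finset.sum_image (fun a _ b _ h => Nat.eq_of_mul_eq_mul_right hℓ.pos h), Finset.mul_sum]
    refine Finset.sum_congr rfl fun _ _ => ?_
    push_cast
    ring
  have key := Finset.sum_union_inter (s₁ := m.divisors.filter (fun d => ¬ p ∣ d))
    (s₂ := (m.divisors.filter (fun d => ¬ p ∣ d)).image (fun d => d * ℓ))
    (f := fun d => (d : ℤ))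
  rw [← sigmaPZ_aux_union hp hℓ hℓp m hm, sigmaPZ_aux_inter hp hℓ hℓp m hm, hinj] at key
  split_ifs at key ⊢ with hlm
  · rw [hinj] at key
    linear_combination key
  · rw [Finset.sum_empty] at key
    linear_combination key

/-! ### The identities for `sigmaPZ` (explicit primality hypothesis) -/

theorem sigmaPZ_one' (p : ℕ) (hp : p.Prime) : sigmaPZ p 1 = 1 :=
  sigmaPZ_aux_sum_one hp

theorem sigmaPZ_mul_self' (p : ℕ) (hp : p.Prime) (k : ℕ) : sigmaPZ p (k * p) = sigmaPZ p k :=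
  sigmaPZ_aux_sum_mul_self hp k

theorem sigmaPZ_mul_prime' (p : ℕ) (hp : p.Prime) (ℓ : ℕ) (hℓ : ℓ.Prime) (hℓp : ℓ ≠ p) (k : ℕ) :
    sigmaPZ p (k * ℓ) =
      (1 + (ℓ : ℤ)) * sigmaPZ p k - (if ℓ ∣ k then (ℓ : ℤ) * sigmaPZ p (k / ℓ) else 0) :=
  sigmaPZ_aux_sum_mul_prime hp hℓ hℓp k

end Fermat.Agent.S16.DU
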